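/-
T14 / SI, package SU: the `S`-unit count (helper27).

For a number field `K` containing a primitive `p`-th root of unity and a finite set `S` of finite
primes, the group `U_S` of `S`-units satisfies `[U_S : U_S^p] = p ^ (|S| + rank (𝓞 K)ˣ + 1)`.
Mathlib only.
-/
import Mathlib

set_option autoImplicit false

open NumberField IsDedekindDomain

namespace Fermat.Agent.S14_helper27

/-! ### Generic index lemmas for the subgroup of `p`-th powers -/

section Generic

variable {G F : Type*} [CommGroup G] [CommGroup F]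

/-- Index of the `p`-th powers: behaviour under a homomorphism to a group without `p`-torsion. -/
theorem index_pow_range_of_hom (p : ℕ) (f : G →* F) (hF : ∀ x : F, x ^ p = 1 → x = 1)
    (N : Subgroup G) (hN : f.ker = N) :
    (powMonoidHom p : G →* G).range.index =
      (powMonoidHom p : N →* N).range.index *
        (f.range.map (powMonoidHom p : F →* F)).relIndex f.range := by
  subst hN
  set P : Subgroup G := (powMonoidHom p : G →* G).range with hP
  set N : Subgroup G := f.ker with hN
  have h1 : P.index = P.relIndex (N ⊔ P) * (N ⊔ P).index :=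
    (Subgroup.relIndex_mul_index le_sup_right).symm
  have h2 : P.relIndex (N ⊔ P) = (P ⊓ N).relIndex N := by
    rw [Subgroup.relIndex_sup_right, Subgroup.inf_relIndex_right]
  have h3 : P ⊓ N = ((powMonoidHom p : N →* N).range).map N.subtype := by
    ext x
    simp only [Subgroup.mem_inf, Subgroup.mem_map, MonoidHom.mem_range, powMonoidHom_apply,
      Subgroup.coe_subtype, hP]
    constructor
    · rintro ⟨⟨y, rfl⟩, hy⟩
      have hyN : y ∈ N := by
        rw [hN, MonoidHom.mem_ker]
        apply hF
        rw [← map_pow]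
        exact hy
      exact ⟨⟨y, hyN⟩ ^ p, ⟨⟨y, hyN⟩, rfl⟩, rfl⟩
    · rintro ⟨z, ⟨y, rfl⟩, rfl⟩
      exact ⟨⟨(y : G), by simp⟩, (y ^ p).2⟩
  have h4 : (((powMonoidHom p : N →* N).range).map N.subtype).relIndex N =
      (powMonoidHom p : N →* N).range.index := by
    rw [Subgroup.relIndex, Subgroup.subgroupOf, Subgroup.comap_map_eq_self_of_injective
      N.subtype_injective]
  have h5 : (N ⊔ P).index = (P.map f).relIndex f.range := by
    rw [← Subgroup.index_comap, Subgroup.comap_map_eq, sup_comm]
  have h6 : P.map f = f.range.map (powMonoidHom p : F →* F) := by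
    ext x
    simp only [Subgroup.mem_map, MonoidHom.mem_range, powMonoidHom_apply, hP]
    constructor
    · rintro ⟨_, ⟨y, rfl⟩, rfl⟩
      exact ⟨f y, ⟨y, rfl⟩, (map_pow f y p).symm⟩
    · rintro ⟨_, ⟨y, rfl⟩, rfl⟩
      exact ⟨y ^ p, ⟨y, rfl⟩, map_pow f y p⟩
  rw [h1, h2, h3, h4, h5, h6]

/-- In a group without `p`-torsion, passing to a subgroup of finite index does not change the index
of the `p`-th powers. -/
theorem relIndex_map_pow_of_index_ne_zero (p : ℕ)
    (hF : Function.Injective (powMonoidHom p : F →* F)) (V : Subgroup F) (hV : V.index ≠ 0) :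
    (V.map (powMonoidHom p : F →* F)).relIndex V = (powMonoidHom p : F →* F).range.index := by
  have hle : V.map (powMonoidHom p : F →* F) ≤ V := by
    rintro _ ⟨x, hx, rfl⟩
    exact V.pow_mem hx p
  have h1 := Subgroup.relIndex_mul_index hle
  rw [Subgroup.index_map_of_injective V hF] at h1
  rw [mul_comm V.index] at h1
  exact Nat.eq_of_mul_eq_mul_right (Nat.pos_of_ne_zero hV) h1


theorem index_pow_range_pi (ι : Type*) [Fintype ι] (p : ℕ) [NeZero p] :
    (powMonoidHom p : Multiplicative (ι → ℤ) →* Multiplicative (ι → ℤ)).range.index =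
      p ^ Fintype.card ι := by
  classical
  let φ₀ : (ι → ℤ) →+ (ι → ZMod p) :=
    { toFun := fun x i => (x i : ZMod p)
      map_zero' := by ext i; simp
      map_add' := fun x y => by ext i; simp }
  let φ : Multiplicative (ι → ℤ) →* Multiplicative (ι → ZMod p) := AddMonoidHom.toMultiplicative φ₀
  have hsurj : Function.Surjective φ := by
    intro y
    refine ⟨Multiplicative.ofAdd fun i => ((Multiplicative.toAdd y i).val : ℤ), ?_⟩
    apply Multiplicative.toAdd.injective
    ext i
    simp [φ, φ₀]
  have hker : φ.ker = (powMonoidHom p : Multiplicative (ι → ℤ) →* Multiplicative (ι → ℤ)).range := by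
    ext x
    simp only [MonoidHom.mem_ker, MonoidHom.mem_range, powMonoidHom_apply]
    constructor
    · intro hx
      have hx' : ∀ i, (p : ℤ) ∣ Multiplicative.toAdd x i := by
        intro i
        have := congrFun (congrArg Multiplicative.toAdd hx) i
        simpa [φ, φ₀, ZMod.intCast_zmod_eq_zero_iff_dvd] using this
      choose y hy using hx'
      refine ⟨Multiplicative.ofAdd y, ?_⟩
      apply Multiplicative.toAdd.injective
      ext i
      simp [hy i]
    · rintro ⟨y, rfl⟩
      apply Multiplicative.toAdd.injective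
      ext i
      simp [φ, φ₀]
  rw [← hker, Subgroup.index_ker, MonoidHom.range_eq_top.mpr hsurj]
  rw [Nat.card_congr (Subgroup.topEquiv (G := Multiplicative (ι → ZMod p))).toEquiv]
  rw [Nat.card_congr (Multiplicative.toAdd (α := ι → ZMod p))]
  rw [Nat.card_fun, Nat.card_zmod, Nat.card_eq_fintype_card]

end Generic


section Generic
variable {G H : Type*} [CommGroup G] [CommGroup H]

theorem index_pow_range_congr (p : ℕ) (e : G ≃* H) :
    (powMonoidHom p : G →* G).range.index = (powMonoidHom p : H →* H).range.index := by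
  have : ((powMonoidHom p : G →* G).range).map (e : G →* H) = (powMonoidHom p : H →* H).range := by
    ext x
    simp only [Subgroup.mem_map, MonoidHom.mem_range, powMonoidHom_apply]
    constructor
    · rintro ⟨_, ⟨y, rfl⟩, rfl⟩
      exact ⟨e y, by simp⟩
    · rintro ⟨y, rfl⟩
      exact ⟨(e.symm y) ^ p, ⟨e.symm y, rfl⟩, by simp⟩
  rw [← this, Subgroup.index_map_equiv]

theorem pow_injective_multiplicative_pi (ι : Type*) (p : ℕ) [NeZero p] :
    Function.Injective (powMonoidHom p : Multiplicative (ι → ℤ) →* Multiplicative (ι → ℤ)) := by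
  intro x y hxy
  apply Multiplicative.toAdd.injective
  have := congrArg Multiplicative.toAdd hxy
  ext i
  have hi := congrFun this i
  simp only [powMonoidHom_apply, toAdd_pow, Pi.smul_apply, nsmul_eq_mul] at hi
  exact mul_left_cancel₀ (by exact_mod_cast NeZero.ne p) hi

end Generic

section Units

variable (K : Type*) [Field K] [NumberField K]

/-- Shortcut instance: without it, instance search for `Module ℤ (Additive ((𝓞 K)ˣ ⧸ torsion K))`
gets stuck outside of Mathlib. -/
noncomputable local instance instCommGroupUnitsRingOfIntegers : CommGroup (𝓞 K)ˣ :=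
  Units.instCommGroupUnits

open NumberField.Units in
theorem index_pow_range_units {p : ℕ} (hp : p.Prime) (hdvd : p ∣ torsionOrder K) :
    (powMonoidHom p : (𝓞 K)ˣ →* (𝓞 K)ˣ).range.index = p ^ (rank K + 1) := by
  have : NeZero p := ⟨hp.ne_zero⟩
  let Q := (𝓞 K)ˣ ⧸ torsion K
  let eQ : Q ≃* Multiplicative (Fin (rank K) → ℤ) :=
    AddEquiv.toMultiplicativeRight (basisModTorsion K).equivFun.toAddEquiv
  have hQtf : ∀ x : Q, x ^ p = 1 → x = 1 := by
    intro x hx
    have h1 : (eQ x) ^ p = (1 : Multiplicative (Fin (rank K) → ℤ)) ^ p := by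
      rw [← map_pow, hx, map_one, one_pow]
    have := pow_injective_multiplicative_pi (Fin (rank K)) p h1
    exact eQ.injective (this.trans (map_one eQ).symm)
  have key := index_pow_range_of_hom p (QuotientGroup.mk' (torsion K)) hQtf (torsion K)
    (QuotientGroup.ker_mk' _)
  rw [key, IsCyclic.index_powMonoidHom_range, MonoidHom.range_eq_top.mpr
    (QuotientGroup.mk'_surjective _), Subgroup.relIndex_top_right, ← MonoidHom.range_eq_map,
    index_pow_range_congr p eQ, index_pow_range_pi, Fintype.card_fin]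
  have : (Nat.card (torsion K)).gcd p = p := Nat.gcd_eq_right hdvd
  rw [this, pow_succ, mul_comm]

end Units



section SUnit

variable (K : Type*) [Field K] [NumberField K]

/-- The `S`-units of `K` for a finite set `S` of finite places. -/
noncomputable abbrev sUnit (S : Finset (HeightOneSpectrum (𝓞 K))) : Subgroup Kˣ :=
  (S : Set (HeightOneSpectrum (𝓞 K))).unit K

variable {K} in
theorem mem_sUnit_iff {S : Finset (HeightOneSpectrum (𝓞 K))} {x : Kˣ} :
    x ∈ sUnit K S ↔ ∀ v : HeightOneSpectrum (𝓞 K), v ∉ S → v.valuation K (x : K) = 1 :=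
  Iff.rfl

/-- The vector of `v`-adic orders (`v ∈ S`). -/
noncomputable def ordHom (S : Finset (HeightOneSpectrum (𝓞 K))) :
    Kˣ →* Multiplicative (S → ℤ) where
  toFun x := Multiplicative.ofAdd fun v => WithZero.log (v.1.valuation K (x : K))
  map_one' := by
    apply Multiplicative.toAdd.injective
    ext v
    simp
  map_mul' x y := by
    apply Multiplicative.toAdd.injective
    ext v
    simp

variable {K} in
@[simp] theorem ordHom_apply (S : Finset (HeightOneSpectrum (𝓞 K))) (x : Kˣ) (v : S) :
    Multiplicative.toAdd (ordHom K S x) v = WithZero.log (v.1.valuation K (x : K)) := rfl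

variable {K} in
theorem ordHom_eq_one_iff (S : Finset (HeightOneSpectrum (𝓞 K))) (x : Kˣ) :
    ordHom K S x = 1 ↔ ∀ v ∈ S, v.valuation K (x : K) = 1 := by
  constructor
  · intro h v hv
    have h1 : WithZero.log (v.valuation K (x : K)) = 0 := by
      have := congrFun (congrArg Multiplicative.toAdd h) ⟨v, hv⟩
      simpa using this
    have hx : v.valuation K (x : K) ≠ 0 := (Valuation.ne_zero_iff _).mpr x.ne_zero
    rw [← WithZero.exp_log hx, h1, WithZero.exp_zero]
  · intro h
    apply Multiplicative.toAdd.injective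
    ext v
    simp [h v.1 v.2]

/-- Units of `𝓞 K` have valuation one everywhere. -/
theorem valuation_unit_eq_one (v : HeightOneSpectrum (𝓞 K)) (u : (𝓞 K)ˣ) :
    v.valuation K (algebraMap (𝓞 K) K (u : 𝓞 K)) = 1 := by
  rw [HeightOneSpectrum.valuation_of_algebraMap, HeightOneSpectrum.intValuation_eq_one_iff]
  intro hu
  exact v.isPrime.ne_top (Ideal.eq_top_of_isUnit_mem _ hu u.isUnit)

/-- An element of `Kˣ` of valuation one everywhere comes from a unit of `𝓞 K`. -/
theorem exists_unit_of_valuation_eq_one (x : Kˣ)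
    (hx : ∀ v : HeightOneSpectrum (𝓞 K), v.valuation K (x : K) = 1) :
    ∃ u : (𝓞 K)ˣ, Units.map (algebraMap (𝓞 K) K : 𝓞 K →* K) u = x := by
  obtain ⟨a, ha⟩ := HeightOneSpectrum.mem_integers_of_valuation_le_one K (x : K)
    (fun v => (hx v).le)
  obtain ⟨b, hb⟩ := HeightOneSpectrum.mem_integers_of_valuation_le_one K ((x⁻¹ : Kˣ) : K)
    (fun v => by rw [Units.val_inv_eq_inv_val, map_inv₀, hx v, inv_one])
  have hinj := FaithfulSMul.algebraMap_injective (𝓞 K) K
  have hab : a * b = 1 := by
    apply hinj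
    rw [map_mul, ha, hb, map_one, Units.mul_inv]
  have hba : b * a = 1 := by rw [mul_comm, hab]
  exact ⟨⟨a, b, hab, hba⟩, Units.ext (by simpa using ha)⟩


/-- The order vector restricted to the `S`-units. -/
noncomputable def sOrdHom (S : Finset (HeightOneSpectrum (𝓞 K))) :
    sUnit K S →* Multiplicative (S → ℤ) :=
  (ordHom K S).comp (sUnit K S).subtype

variable {K} in
theorem mem_ker_sOrdHom_iff {S : Finset (HeightOneSpectrum (𝓞 K))} (x : sUnit K S) :
    x ∈ (sOrdHom K S).ker ↔
      ∀ v : HeightOneSpectrum (𝓞 K), v.valuation K (((x : Kˣ) : K)) = 1 := by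
  rw [MonoidHom.mem_ker, sOrdHom, MonoidHom.comp_apply, Subgroup.coe_subtype, ordHom_eq_one_iff]
  constructor
  · intro h v
    by_cases hv : v ∈ S
    · exact h v hv
    · exact mem_sUnit_iff.mp x.2 v hv
  · intro h v _
    exact h v

/-- The units of `𝓞 K` as `S`-units. -/
noncomputable def unitsToSUnit (S : Finset (HeightOneSpectrum (𝓞 K))) : (𝓞 K)ˣ →* sUnit K S :=
  (Units.map (algebraMap (𝓞 K) K : 𝓞 K →* K)).codRestrict (sUnit K S)
    (fun u => mem_sUnit_iff.mpr fun v _ => valuation_unit_eq_one K v u)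

/-- The units of `𝓞 K` as the kernel of the order vector on the `S`-units. -/
noncomputable def unitsToKer (S : Finset (HeightOneSpectrum (𝓞 K))) :
    (𝓞 K)ˣ →* (sOrdHom K S).ker :=
  (unitsToSUnit K S).codRestrict _ (fun u => (mem_ker_sOrdHom_iff _).mpr fun v =>
    valuation_unit_eq_one K v u)

theorem unitsToKer_bijective (S : Finset (HeightOneSpectrum (𝓞 K))) :
    Function.Bijective (unitsToKer K S) := by
  constructor
  · intro u u' h
    have h1 : Units.map (algebraMap (𝓞 K) K : 𝓞 K →* K) u =
        Units.map (algebraMap (𝓞 K) K : 𝓞 K →* K) u' :=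
      congrArg (fun z : (sOrdHom K S).ker => ((z : sUnit K S) : Kˣ)) h
    exact Units.map_injective (FaithfulSMul.algebraMap_injective (𝓞 K) K) h1
  · rintro ⟨⟨x, hxS⟩, hxker⟩
    obtain ⟨u, hu⟩ := exists_unit_of_valuation_eq_one K x ((mem_ker_sOrdHom_iff _).mp hxker)
    exact ⟨u, Subtype.ext (Subtype.ext hu)⟩

/-- The units of `𝓞 K` are (isomorphic to) the kernel of the order vector on the `S`-units. -/
noncomputable def unitsEquivKer (S : Finset (HeightOneSpectrum (𝓞 K))) :
    (𝓞 K)ˣ ≃* (sOrdHom K S).ker :=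
  MulEquiv.ofBijective (unitsToKer K S) (unitsToKer_bijective K S)


/-- Some power of a finite prime is principal, with control of all valuations of the generator. -/
theorem exists_generator_pow_classNumber (v : HeightOneSpectrum (𝓞 K)) :
    ∃ π : 𝓞 K, π ≠ 0 ∧
      v.valuation K (algebraMap (𝓞 K) K π) = WithZero.exp (-(classNumber K : ℤ)) ∧
      ∀ w : HeightOneSpectrum (𝓞 K), w ≠ v → w.valuation K (algebraMap (𝓞 K) K π) = 1 := by
  classical
  have hv0 : v.asIdeal ∈ nonZeroDivisors (Ideal (𝓞 K)) :=
    mem_nonZeroDivisors_of_ne_zero v.ne_bot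
  have h1 : ClassGroup.mk0 (⟨v.asIdeal, hv0⟩ ^ classNumber K) = 1 := by
    rw [map_pow, classNumber, ← Nat.card_eq_fintype_card]
    exact pow_card_eq_one'
  rw [ClassGroup.mk0_eq_one_iff] at h1
  obtain ⟨π, hπ⟩ := h1.principal
  have hspan : Ideal.span {π} = v.asIdeal ^ classNumber K := by
    rw [← Ideal.submodule_span_eq, ← hπ]
    simp
  have hpow_ne : v.asIdeal ^ classNumber K ≠ ⊥ := pow_ne_zero _ v.ne_bot
  have hπ0 : π ≠ 0 := by
    rintro rfl
    apply hpow_ne
    rw [← hspan]
    simp
  refine ⟨π, hπ0, ?_, ?_⟩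
  · rw [HeightOneSpectrum.valuation_of_algebraMap,
      HeightOneSpectrum.intValuation_eq_exp_neg_multiplicity v hπ0, hspan,
      multiplicity_pow_self_of_prime v.prime]
  · intro w hw
    rw [HeightOneSpectrum.valuation_of_algebraMap, HeightOneSpectrum.intValuation_eq_one_iff]
    intro hmem
    apply hw
    have h2 : v.asIdeal ^ classNumber K ≤ w.asIdeal := by
      rw [← hspan, Ideal.span_singleton_le_iff_mem]
      exact hmem
    have h3 : v.asIdeal ≤ w.asIdeal := w.isPrime.le_of_pow_le h2
    exact HeightOneSpectrum.ext (v.isMaximal.eq_of_le w.isPrime.ne_top h3).symm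

end SUnit



section Main

variable (K : Type*) [Field K] [NumberField K]

theorem sOrdHom_range_index_ne_zero (S : Finset (HeightOneSpectrum (𝓞 K))) :
    (sOrdHom K S).range.index ≠ 0 := by
  classical
  have hh : classNumber K ≠ 0 := (classNumber_pos K).ne'
  have : NeZero (classNumber K) := ⟨hh⟩
  -- for each `v ∈ S` an `S`-unit supported at `v`
  choose π hπ0 hπv hπw using fun v : HeightOneSpectrum (𝓞 K) => exists_generator_pow_classNumber K v
  have hne : ∀ v : HeightOneSpectrum (𝓞 K), algebraMap (𝓞 K) K (π v) ≠ 0 := fun v =>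
    (map_ne_zero_iff _ (FaithfulSMul.algebraMap_injective (𝓞 K) K)).mpr (hπ0 v)
  let Y : S → sUnit K S := fun v => ⟨Units.mk0 _ (hne v.1), mem_sUnit_iff.mpr fun w hw => by
    apply hπw
    rintro rfl
    exact hw v.2⟩
  have hY : ∀ v w : S, Multiplicative.toAdd (sOrdHom K S (Y v)) w =
      if w = v then -(classNumber K : ℤ) else 0 := by
    intro v w
    simp only [sOrdHom, MonoidHom.comp_apply, Subgroup.coe_subtype, ordHom_apply, Y, Units.val_mk0]
    split_ifs with h
    · subst h
      rw [hπv, WithZero.log_exp]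
    · rw [hπw _ _ (fun h' => h (Subtype.ext h')), WithZero.log_one]
  have hle : (powMonoidHom (classNumber K) :
      Multiplicative (S → ℤ) →* Multiplicative (S → ℤ)).range ≤ (sOrdHom K S).range := by
    rintro _ ⟨z, rfl⟩
    refine ⟨∏ v : S, (Y v) ^ (-(Multiplicative.toAdd z v)), ?_⟩
    apply Multiplicative.toAdd.injective
    ext w
    rw [map_prod, toAdd_prod, Finset.sum_apply]
    simp only [map_zpow, toAdd_zpow, Pi.smul_apply, hY, smul_eq_mul, powMonoidHom_apply, toAdd_pow,
      nsmul_eq_mul]
    rw [Finset.sum_eq_single w]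
    · simp; ring
    · intro v _ hvw
      simp [Ne.symm hvw]
    · intro h
      exact absurd (Finset.mem_univ w) h
  intro h0
  have hdvd := Subgroup.index_dvd_of_le hle
  rw [h0, index_pow_range_pi, zero_dvd_iff] at hdvd
  exact pow_ne_zero _ hh hdvd


/-- **S-unit count.**  If `K` contains a primitive `p`-th root of unity (`p` prime) then the index of the
`p`-th powers in the group of `S`-units is `p ^ (|S| + rank (𝓞 K)ˣ + 1)`. -/
theorem index_pow_range_sUnit {p : ℕ} (hp : p.Prime) {ζ : K} (hζ : IsPrimitiveRoot ζ p)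
    (S : Finset (HeightOneSpectrum (𝓞 K))) :
    (powMonoidHom p : sUnit K S →* sUnit K S).range.index =
      p ^ (S.card + NumberField.Units.rank K + 1) := by
  have : NeZero p := ⟨hp.ne_zero⟩
  have hdvd : p ∣ NumberField.Units.torsionOrder K :=
    NumberField.Units.dvd_torsionOrder_of_isPrimitiveRoot hζ
  have hinj := pow_injective_multiplicative_pi S p
  have hF : ∀ x : Multiplicative (S → ℤ), x ^ p = 1 → x = 1 := fun x hx =>
    hinj (by simpa using hx)
  rw [index_pow_range_of_hom p (sOrdHom K S) hF _ rfl,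
    relIndex_map_pow_of_index_ne_zero p hinj _ (sOrdHom_range_index_ne_zero K S),
    ← index_pow_range_congr p (unitsEquivKer K S), index_pow_range_units K hp hdvd,
    index_pow_range_pi, Fintype.card_coe, ← pow_add]
  congr 1
  ring

/-- Quotient form of `index_pow_range_sUnit`. -/
theorem card_sUnit_quot_pow {p : ℕ} (hp : p.Prime) {ζ : K} (hζ : IsPrimitiveRoot ζ p)
    (S : Finset (HeightOneSpectrum (𝓞 K))) :
    Nat.card (sUnit K S ⧸ (powMonoidHom p : sUnit K S →* sUnit K S).range) =
      p ^ (S.card + NumberField.Units.rank K + 1) :=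
  index_pow_range_sUnit K hp hζ S

end Main


section TotallyComplex

variable (K : Type*) [Field K] [NumberField K]

omit [NumberField K] in
/-- A number field containing a primitive `n`-th root of unity with `3 ≤ n` is totally complex. -/
theorem isTotallyComplex_of_isPrimitiveRoot {n : ℕ} (hn : 3 ≤ n) {ζ : K}
    (hζ : IsPrimitiveRoot ζ n) : IsTotallyComplex K := by
  refine ⟨fun w => ?_⟩
  rw [← InfinitePlace.not_isReal_iff_isComplex]
  intro hw
  let ψ : K →+* ℝ := InfinitePlace.embedding_of_isReal hw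
  have hψ : IsPrimitiveRoot (ψ ζ) n := hζ.map_of_injective ψ.injective
  have h1 : |ψ ζ| = 1 := by
    have h2 : |ψ ζ| ^ n = 1 := by rw [← abs_pow, hψ.pow_eq_one, abs_one]
    exact (pow_eq_one_iff_of_nonneg (abs_nonneg _) (by omega)).mp h2
  have h3 : (ψ ζ) ^ 2 = 1 := by
    rw [← sq_abs, h1, one_pow]
  have := hψ.dvd_of_pow_eq_one 2 h3
  have := Nat.le_of_dvd (by norm_num) this
  omega

theorem two_mul_rank_add_one_of_isPrimitiveRoot {n : ℕ} (hn : 3 ≤ n) {ζ : K}
    (hζ : IsPrimitiveRoot ζ n) : 2 * (NumberField.Units.rank K + 1) = Module.finrank ℚ K := by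
  have := isTotallyComplex_of_isPrimitiveRoot K hn hζ
  rw [IsTotallyComplex.finrank (K := K), NumberField.Units.rank,
    InfinitePlace.card_eq_nrRealPlaces_add_nrComplexPlaces, IsTotallyComplex.nrRealPlaces_eq_zero,
    zero_add]
  have : 0 < InfinitePlace.nrComplexPlaces K := by
    by_contra h
    have h0 : InfinitePlace.nrComplexPlaces K = 0 := by omega
    have h1 := InfinitePlace.card_eq_nrRealPlaces_add_nrComplexPlaces (K := K)
    rw [h0, IsTotallyComplex.nrRealPlaces_eq_zero] at h1
    exact Fintype.card_ne_zero h1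
  omega

end TotallyComplex

section Mono

variable (K : Type*) [Field K] [NumberField K]

variable {K} in
theorem sUnit_mono {S S' : Finset (HeightOneSpectrum (𝓞 K))} (h : S ⊆ S') :
    sUnit K S ≤ sUnit K S' := fun _ hx =>
  mem_sUnit_iff.mpr fun v hv => mem_sUnit_iff.mp hx v fun hv' => hv (h hv')

variable {K} in
theorem mem_sUnit_of_pow_mem {S : Finset (HeightOneSpectrum (𝓞 K))} {n : ℕ} (hn : n ≠ 0)
    {y : Kˣ} (h : y ^ n ∈ sUnit K S) : y ∈ sUnit K S := by
  refine mem_sUnit_iff.mpr fun v hv => ?_
  have h1 := mem_sUnit_iff.mp h v hv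
  rw [Units.val_pow_eq_pow_val, map_pow] at h1
  exact (pow_eq_one_iff.mp h1).resolve_right hn

variable {K} in
theorem sUnit_inf_pow_range (S : Finset (HeightOneSpectrum (𝓞 K))) {p : ℕ} (hp : p ≠ 0) :
    sUnit K S ⊓ (powMonoidHom p : Kˣ →* Kˣ).range =
      ((powMonoidHom p : sUnit K S →* sUnit K S).range).map (sUnit K S).subtype := by
  ext x
  simp only [Subgroup.mem_inf, MonoidHom.mem_range, powMonoidHom_apply, Subgroup.mem_map,
    Subgroup.coe_subtype]
  constructor
  · rintro ⟨hx, y, rfl⟩
    exact ⟨⟨y, mem_sUnit_of_pow_mem hp hx⟩ ^ p, ⟨⟨y, mem_sUnit_of_pow_mem hp hx⟩, rfl⟩, rfl⟩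
  · rintro ⟨_, ⟨y, rfl⟩, rfl⟩
    exact ⟨(y ^ p).2, (y : Kˣ), rfl⟩


end Mono

section Complex

variable (K : Type*) [Field K] [NumberField K]

theorem rank_add_one_eq_nrComplexPlaces {n : ℕ} (hn : 3 ≤ n) {ζ : K}
    (hζ : IsPrimitiveRoot ζ n) :
    NumberField.Units.rank K + 1 = InfinitePlace.nrComplexPlaces K := by
  have h1 := two_mul_rank_add_one_of_isPrimitiveRoot K hn hζ
  have := isTotallyComplex_of_isPrimitiveRoot K hn hζ
  have h2 := IsTotallyComplex.finrank (K := K)
  omega

/-- The `S`-unit count in terms of the number of complex places. -/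
theorem card_sUnit_quot_pow' {p : ℕ} (hp : p.Prime) (hp2 : p ≠ 2) {ζ : K}
    (hζ : IsPrimitiveRoot ζ p) (S : Finset (HeightOneSpectrum (𝓞 K))) :
    Nat.card (sUnit K S ⧸ (powMonoidHom p : sUnit K S →* sUnit K S).range) =
      p ^ (S.card + InfinitePlace.nrComplexPlaces K) := by
  have h3 : 3 ≤ p := by
    have := hp.two_le
    omega
  rw [card_sUnit_quot_pow K hp hζ S, ← rank_add_one_eq_nrComplexPlaces K h3 hζ, add_assoc]

end Complex

end Fermat.Agent.S14_helper27
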